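/-
GATE-M / S41-ALG (helper98): the algebra lemma of level raising (helper95, board 3373 (2)).

`α : L1 × L1 → L2`, `β : L2 → L1 × L1` Hecke-equivariant with `β ∘ α = [[q+1, t], [t, q+1]]`;
Ihara's lemma in the two forms "`ker (α mod p)` is killed by `η`" and "`coker (β mod p)` is
killed by `η'`" with `η, η' ∉ 𝔪`; `(q+1)^2 - t^2 ∈ 𝔪` and `𝔪` in the support of `L1`.
Then every Hecke operator killing `ker β` lies in `𝔪`, i.e. `𝔪 ∩ T` is in the support of `ker β`.

Elementary proof: no localisation, no freeness; only that `L1`, `L2` are finitely generated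
abelian groups.  Mathlib only.
-/
import Mathlib

set_option autoImplicit false

namespace Fermat.Agent.GM.Alg

section sat

variable {T : Type*} [CommRing T] {L2 X : Type*} [AddCommGroup L2] [Module T L2]
  [AddCommGroup X] [Module T X] [Module.Finite ℤ X]

/-- If `η'` kills the cokernel of `β` modulo `p`, then a power of `η'` moves every element of the
`p`-saturation of the range of `β` into the range of `β`. -/
theorem exists_pow_smul_eq_of_sat (p : ℕ) (β : L2 →ₗ[T] X) (η' : T)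
    (hDual : ∀ y : X, ∃ (z : L2) (w : X), η' • y = β z + (p : ℤ) • w)
    (z : X) (hz : ∃ i : ℕ, ((p : ℤ) ^ i) • z ∈ LinearMap.range β) :
    ∃ (m : ℕ) (y : L2), η' ^ m • z = β y := by
  classical
  set B : Submodule ℤ X := (LinearMap.range β).restrictScalars ℤ with hB
  have hBmem : ∀ x : X, x ∈ B ↔ x ∈ LinearMap.range β := fun x => Iff.rfl
  -- the increasing chain `D j = {z | p^j z ∈ B}`
  let f : ℕ →o Submodule ℤ X :=
    ⟨fun j => B.comap (((p : ℤ) ^ j) • (LinearMap.id : X →ₗ[ℤ] X)), by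
      intro j k hjk x hx
      simp only [Submodule.mem_comap, LinearMap.smul_apply, LinearMap.id_coe, id_eq] at hx ⊢
      obtain ⟨d, rfl⟩ := Nat.exists_eq_add_of_le hjk
      rw [pow_add, mul_comm, mul_smul]
      exact B.smul_mem _ hx⟩
  obtain ⟨m, hm⟩ := monotone_stabilizes_iff_noetherian.mpr
    (inferInstance : IsNoetherian ℤ X) f
  have hf : ∀ (j : ℕ) (x : X), x ∈ f j ↔ ((p : ℤ) ^ j) • x ∈ LinearMap.range β := by
    intro j x
    show x ∈ B.comap (((p : ℤ) ^ j) • (LinearMap.id : X →ₗ[ℤ] X)) ↔ _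
    simp only [Submodule.mem_comap, LinearMap.smul_apply, LinearMap.id_coe, id_eq, hBmem]
  have key : ∀ z' : X, (∃ i : ℕ, ((p : ℤ) ^ i) • z' ∈ LinearMap.range β) →
      ((p : ℤ) ^ m) • z' ∈ LinearMap.range β := by
    rintro z' ⟨i, hi⟩
    rw [← hf]
    have h1 : z' ∈ f (max i m) := f.monotone (le_max_left i m) ((hf i z').mpr hi)
    rwa [← hm (max i m) (le_max_right i m)] at h1
  have step : ∀ j : ℕ, ∀ z : X, (∃ i : ℕ, ((p : ℤ) ^ i) • z ∈ LinearMap.range β) →
      ∃ b ∈ LinearMap.range β, ∃ z' : X,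
        (∃ i : ℕ, ((p : ℤ) ^ i) • z' ∈ LinearMap.range β) ∧
          η' ^ j • z = b + ((p : ℤ) ^ j) • z' := by
    intro j
    induction j with
    | zero =>
      intro z hz
      exact ⟨0, zero_mem _, z, hz, by simp⟩
    | succ j ih =>
      intro z hz
      obtain ⟨b, hb, z', ⟨i, hi⟩, hz'⟩ := ih z hz
      obtain ⟨z₀, w, hw⟩ := hDual z'
      have hwsat : ∃ i : ℕ, ((p : ℤ) ^ i) • w ∈ LinearMap.range β := by
        refine ⟨i + 1, ?_⟩
        have h1 : ((p : ℤ) ^ (i + 1)) • w = η' • (((p : ℤ) ^ i) • z') - ((p : ℤ) ^ i) • β z₀ := by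
          rw [pow_succ, mul_smul, smul_comm η', hw, smul_add, add_sub_cancel_left]
        rw [h1]
        refine sub_mem (Submodule.smul_mem _ _ hi) ?_
        exact zsmul_mem (LinearMap.mem_range_self β z₀) _
      refine ⟨η' • b + ((p : ℤ) ^ j) • β z₀, ?_, w, hwsat, ?_⟩
      · exact add_mem (Submodule.smul_mem _ _ hb) (zsmul_mem (LinearMap.mem_range_self β z₀) _)
      · rw [pow_succ', mul_smul, hz', smul_add, smul_comm η' ((p : ℤ) ^ j) z', hw, smul_add,
          pow_succ, mul_smul, add_assoc]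
  obtain ⟨b, hb, z', hz'sat, hz'⟩ := step m z hz
  have h2 := key z' hz'sat
  have h3 : η' ^ m • z ∈ LinearMap.range β := by
    rw [hz']
    exact add_mem hb h2
  obtain ⟨y, hy⟩ := h3
  exact ⟨m, y, hy.symm⟩

end sat

section main

variable {T A : Type*} [CommRing T] [CommRing A] [Algebra T A]
  {L1 L2 : Type*} [AddCommGroup L1] [Module A L1] [Module T L1] [IsScalarTower T A L1]
  [AddCommGroup L2] [Module T L2] [Module.Finite ℤ L1]

/-- **Step 1.** If `M x = β (α x)` is divisible by `p`, then some power of `s η η'` moves `x`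
into `p (L1 × L1)`. -/
theorem exists_pow_smul_eq_of_comp (p : ℕ) (α : L1 × L1 →ₗ[T] L2) (β : L2 →ₗ[T] L1 × L1)
    (η η' s : T)
    (hIhara : ∀ x : L1 × L1, (∃ y, α x = (p : ℤ) • y) → ∃ z, η • x = (p : ℤ) • z)
    (hDual : ∀ y : L1 × L1, ∃ (z : L2) (w : L1 × L1), η' • y = β z + (p : ℤ) • w)
    (hs : ∀ y : L2, β y = 0 → s • y = 0)
    (x : L1 × L1) (hx : ∃ z, β (α x) = (p : ℤ) • z) :
    ∃ (k : ℕ) (z : L1 × L1), (s * η * η') ^ k • x = (p : ℤ) • z := by
  obtain ⟨z, hz⟩ := hx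
  obtain ⟨m, y₂, hy₂⟩ := exists_pow_smul_eq_of_sat p β η' hDual z
    ⟨1, by rw [pow_one, ← hz]; exact LinearMap.mem_range_self β _⟩
  have h1 : β (η' ^ m • α x - (p : ℤ) • y₂) = 0 := by
    rw [map_sub, map_smul, hz, map_zsmul, ← hy₂, smul_comm, sub_self]
  have h2 := hs _ h1
  rw [smul_sub, sub_eq_zero] at h2
  have h3 : α ((s * η' ^ m) • x) = (p : ℤ) • (s • y₂) := by
    rw [map_smul, mul_smul, h2, smul_comm]
  obtain ⟨z'', hz''⟩ := hIhara _ ⟨_, h3⟩
  refine ⟨m + 1, (s ^ m * η ^ m * η') • z'', ?_⟩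
  rw [smul_comm ((p : ℤ)) _ z'', ← hz'', ← mul_smul, ← mul_smul]
  congr 1
  ring

/-- **Step 2.** If `((q+1)^2 - t^2) v` is divisible by `p`, some power of `s η η'` moves `v` into
`p L1`. -/
theorem exists_pow_smul_eq_of_det (p q : ℕ) (t : A)
    (α : L1 × L1 →ₗ[T] L2) (β : L2 →ₗ[T] L1 × L1)
    (hβα : ∀ x y : L1, β (α (x, y)) =
      (((q : A) + 1) • x + t • y, t • x + ((q : A) + 1) • y))
    (η η' s : T)
    (hIhara : ∀ x : L1 × L1, (∃ y, α x = (p : ℤ) • y) → ∃ z, η • x = (p : ℤ) • z)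
    (hDual : ∀ y : L1 × L1, ∃ (z : L2) (w : L1 × L1), η' • y = β z + (p : ℤ) • w)
    (hs : ∀ y : L2, β y = 0 → s • y = 0)
    (v : L1) (hv : ∃ z : L1, (((q : A) + 1) ^ 2 - t ^ 2) • v = (p : ℤ) • z) :
    ∃ (k : ℕ) (z : L1), (algebraMap T A (s * η * η')) ^ k • v = (p : ℤ) • z := by
  set c : T := s * η * η' with hc
  have hcsmul : ∀ (k : ℕ) (a b : L1), c ^ k • ((a, b) : L1 × L1) =
      ((algebraMap T A c) ^ k • a, (algebraMap T A c) ^ k • b) := by
    intro k a b
    rw [Prod.smul_mk, ← map_pow, algebraMap_smul, algebraMap_smul]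
  obtain ⟨z₀, hz₀⟩ := hv
  -- first application
  have hx1 : β (α ((((q : A) + 1) • v, -(t • v)) : L1 × L1)) = (p : ℤ) • ((z₀, 0) : L1 × L1) := by
    rw [hβα, Prod.smul_mk, smul_zero, ← hz₀]
    refine Prod.ext ?_ ?_
    · simp only [smul_neg, ← mul_smul]
      rw [← sub_eq_add_neg, ← sub_smul]
      congr 1
      ring
    · simp only [smul_neg, ← mul_smul]
      rw [mul_comm t, add_neg_cancel]
  obtain ⟨k, z', hz'⟩ := exists_pow_smul_eq_of_comp p α β η η' s hIhara hDual hs _ ⟨_, hx1⟩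
  rw [hcsmul] at hz'
  have hz'1 : (algebraMap T A c) ^ k • (((q : A) + 1) • v) = (p : ℤ) • z'.1 := by
    have := congrArg Prod.fst hz'
    simpa using this
  have hz'2 : (algebraMap T A c) ^ k • (-(t • v)) = (p : ℤ) • z'.2 := by
    have := congrArg Prod.snd hz'
    simpa using this
  -- second application
  have hx2 : β (α (((algebraMap T A c) ^ k • v, 0) : L1 × L1)) =
      (p : ℤ) • ((z'.1, -z'.2) : L1 × L1) := by
    rw [hβα, Prod.smul_mk, smul_zero, smul_zero, add_zero, add_zero, smul_neg, ← hz'1, ← hz'2]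
    refine Prod.ext ?_ ?_
    · simp only [smul_comm _ (((q : A) + 1))]
    · simp only [smul_neg, neg_neg, smul_comm _ t]
  obtain ⟨k', z'', hz''⟩ := exists_pow_smul_eq_of_comp p α β η η' s hIhara hDual hs _ ⟨_, hx2⟩
  rw [hcsmul] at hz''
  refine ⟨k' + k, z''.1, ?_⟩
  have := congrArg Prod.fst hz''
  simp only [Prod.smul_fst] at this
  rw [pow_add, mul_smul]
  exact this

/-- **The algebra lemma of level raising.**  Every `s ∈ T` killing `ker β` lies in `𝔪`. -/
theorem ann_ker_le_of_levelRaise (p q : ℕ) (hp : p.Prime) (t : A)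
    (α : L1 × L1 →ₗ[T] L2) (β : L2 →ₗ[T] L1 × L1)
    (hβα : ∀ x y : L1, β (α (x, y)) =
      (((q : A) + 1) • x + t • y, t • x + ((q : A) + 1) • y))
    (𝔪 : Ideal A) (hmax : 𝔪.IsMaximal) (hpm : (p : A) ∈ 𝔪)
    (hdet : ((q : A) + 1) ^ 2 - t ^ 2 ∈ 𝔪)
    (hsupp : ∃ x : L1, x ∉ 𝔪 • (⊤ : Submodule A L1))
    (η η' : T) (hη : algebraMap T A η ∉ 𝔪) (hη' : algebraMap T A η' ∉ 𝔪)
    (hIhara : ∀ x : L1 × L1, (∃ y, α x = (p : ℤ) • y) → ∃ z, η • x = (p : ℤ) • z)
    (hDual : ∀ y : L1 × L1, ∃ (z : L2) (w : L1 × L1), η' • y = β z + (p : ℤ) • w)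
    (s : T) (hs : ∀ y : L2, β y = 0 → s • y = 0) :
    algebraMap T A s ∈ 𝔪 := by
  classical
  by_contra hsm
  have hprime : 𝔪.IsPrime := hmax.isPrime
  set c : A := algebraMap T A (s * η * η') with hc
  have hcm : c ∉ 𝔪 := by
    rw [hc, map_mul, map_mul]
    intro h
    rcases hprime.mem_or_mem h with h | h
    · rcases hprime.mem_or_mem h with h | h
      · exact hsm h
      · exact hη h
    · exact hη' h
  set d : A := ((q : A) + 1) ^ 2 - t ^ 2 with hd
  -- the finite quotient `V = L1 / p L1`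
  let P : Submodule A L1 := LinearMap.range (LinearMap.lsmul A L1 (p : A))
  have hPmem : ∀ x : L1, x ∈ P ↔ ∃ z : L1, x = (p : ℤ) • z := by
    intro x
    constructor
    · rintro ⟨z, rfl⟩
      exact ⟨z, by simp [Nat.cast_smul_eq_nsmul]⟩
    · rintro ⟨z, rfl⟩
      exact ⟨z, by simp [Nat.cast_smul_eq_nsmul]⟩
  have hPm : P ≤ 𝔪 • (⊤ : Submodule A L1) := by
    rintro x ⟨z, rfl⟩
    exact Submodule.smul_mem_smul hpm Submodule.mem_top
  let V := L1 ⧸ P
  have hVfin : Finite V := by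
    have h1 : Module.Finite ℤ V :=
      Module.Finite.of_surjective (P.mkQ.restrictScalars ℤ) (Submodule.mkQ_surjective P)
    refine Module.finite_of_fg_torsion V ?_
    intro x
    obtain ⟨y, rfl⟩ := Submodule.Quotient.mk_surjective P x
    refine ⟨⟨(p : ℤ), mem_nonZeroDivisors_of_ne_zero (by exact_mod_cast hp.ne_zero)⟩, ?_⟩
    show (p : ℤ) • (Submodule.Quotient.mk y : V) = 0
    rw [← Submodule.Quotient.mk_smul, Submodule.Quotient.mk_eq_zero, hPmem]
    exact ⟨y, rfl⟩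
  have hArt : IsArtinian A V := isArtinian_of_finite
  have hNoe : IsNoetherian A V := isNoetherian_of_finite A V
  let C : Module.End A V := Algebra.lsmul A A V c
  let Dd : Module.End A V := Algebra.lsmul A A V d
  have hCpow : ∀ (n : ℕ) (x : L1), (C ^ n) (Submodule.Quotient.mk x : V) =
      Submodule.Quotient.mk (c ^ n • x) := by
    intro n x
    rw [← map_pow]
    rfl
  obtain ⟨N, hN⟩ := Filter.eventually_atTop.mp (LinearMap.eventually_iInf_range_pow_eq C)
  have hN' := hN N le_rfl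
  have hdisj := (LinearMap.isCompl_iSup_ker_pow_iInf_range_pow C).disjoint
  set V' : Submodule A V := ⨅ m, LinearMap.range (C ^ m) with hV'
  -- `Dd` preserves `V'`
  have hDV' : ∀ v ∈ V', Dd v ∈ V' := by
    intro v hv
    rw [hV', Submodule.mem_iInf] at hv ⊢
    intro m
    obtain ⟨u, rfl⟩ := hv m
    refine ⟨Dd u, ?_⟩
    have hcomm : Commute (C ^ m) Dd := by
      apply Commute.pow_left
      show C * Dd = Dd * C
      rw [← map_mul, ← map_mul, mul_comm]
    exact (LinearMap.congr_fun hcomm.eq u)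
  let D' : V' →ₗ[A] V' := Dd.restrict hDV'
  have hD'inj : Function.Injective D' := by
    rw [← LinearMap.ker_eq_bot, LinearMap.ker_eq_bot']
    rintro ⟨v, hv⟩ h0
    have h0' : Dd v = 0 := by
      have := congrArg Subtype.val h0
      simpa [D'] using this
    obtain ⟨x, rfl⟩ := Submodule.Quotient.mk_surjective P v
    have h1 : d • x ∈ P := by
      rw [← Submodule.Quotient.mk_eq_zero P]
      exact h0'
    obtain ⟨k, z, hz⟩ := exists_pow_smul_eq_of_det p q t α β hβα η η' s hIhara hDual hs x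
      ((hPmem _).mp h1)
    have h2 : (Submodule.Quotient.mk x : V) ∈ ⨆ n, LinearMap.ker (C ^ n) := by
      refine Submodule.mem_iSup_of_mem k ?_
      rw [LinearMap.mem_ker, hCpow, Submodule.Quotient.mk_eq_zero, hPmem]
      exact ⟨z, hz⟩
    have h3 := Submodule.disjoint_def.mp hdisj _ h2 hv
    exact Subtype.ext h3
  have hD'surj : Function.Surjective D' :=
    IsArtinian.surjective_of_injective_endomorphism D' hD'inj
  -- hence `c^N L1 ⊆ 𝔪 L1`
  have hcN : ∀ x : L1, c ^ N • x ∈ 𝔪 • (⊤ : Submodule A L1) := by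
    intro x
    have h1 : (C ^ N) (Submodule.Quotient.mk x : V) ∈ V' := by
      rw [hN']
      exact LinearMap.mem_range_self _ _
    obtain ⟨⟨u, hu⟩, hu'⟩ := hD'surj ⟨_, h1⟩
    have hu'' : Dd u = (C ^ N) (Submodule.Quotient.mk x : V) := by
      have := congrArg Subtype.val hu'
      simpa [D'] using this
    obtain ⟨y, rfl⟩ := Submodule.Quotient.mk_surjective P u
    rw [hCpow] at hu''
    have h2 : d • y - c ^ N • x ∈ P := by
      rw [← Submodule.Quotient.mk_eq_zero P, Submodule.Quotient.mk_sub, sub_eq_zero]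
      exact hu''
    have h3 : d • y ∈ 𝔪 • (⊤ : Submodule A L1) := Submodule.smul_mem_smul hdet Submodule.mem_top
    have h4 : c ^ N • x = d • y - (d • y - c ^ N • x) := by abel
    rw [h4]
    exact sub_mem h3 (hPm h2)
  -- `c^N` is invertible modulo `𝔪`
  have hcNm : c ^ N ∉ 𝔪 := fun h => hcm (hprime.mem_of_pow_mem N h)
  obtain ⟨a, i, hi, hai⟩ := hmax.exists_inv hcNm
  obtain ⟨x, hx⟩ := hsupp
  apply hx
  have h5 : x = a • (c ^ N • x) + i • x := by
    rw [← mul_smul, ← add_smul, hai, one_smul]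
  rw [h5]
  exact add_mem (Submodule.smul_mem _ a (hcN x)) (Submodule.smul_mem_smul hi Submodule.mem_top)

/-- Support form: `𝔫 = 𝔪 ∩ T` is in the support of `ker β`, i.e. `ker β ≠ 𝔫 • ker β`. -/
theorem ker_not_le_smul_ker_of_levelRaise [Module.Finite ℤ L2] (p q : ℕ) (hp : p.Prime) (t : A)
    (α : L1 × L1 →ₗ[T] L2) (β : L2 →ₗ[T] L1 × L1)
    (hβα : ∀ x y : L1, β (α (x, y)) =
      (((q : A) + 1) • x + t • y, t • x + ((q : A) + 1) • y))
    (𝔪 : Ideal A) (hmax : 𝔪.IsMaximal) (hpm : (p : A) ∈ 𝔪)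
    (hdet : ((q : A) + 1) ^ 2 - t ^ 2 ∈ 𝔪)
    (hsupp : ∃ x : L1, x ∉ 𝔪 • (⊤ : Submodule A L1))
    (η η' : T) (hη : algebraMap T A η ∉ 𝔪) (hη' : algebraMap T A η' ∉ 𝔪)
    (hIhara : ∀ x : L1 × L1, (∃ y, α x = (p : ℤ) • y) → ∃ z, η • x = (p : ℤ) • z)
    (hDual : ∀ y : L1 × L1, ∃ (z : L2) (w : L1 × L1), η' • y = β z + (p : ℤ) • w) :
    ¬ (LinearMap.ker β ≤ (𝔪.comap (algebraMap T A)) • LinearMap.ker β) := by
  intro hle
  have hfgZ : ((LinearMap.ker β).restrictScalars ℤ).FG := IsNoetherian.noetherian _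
  have hfg : (LinearMap.ker β).FG := by
    obtain ⟨S, hS⟩ := hfgZ
    refine ⟨S, le_antisymm (Submodule.span_le.mpr ?_) ?_⟩
    · intro x hx
      have : x ∈ (LinearMap.ker β).restrictScalars ℤ := by
        rw [← hS]
        exact Submodule.subset_span hx
      exact this
    · intro x hx
      have h1 : x ∈ Submodule.span ℤ (S : Set L2) := by
        rw [hS]
        exact hx
      exact Submodule.span_le_restrictScalars ℤ T (S : Set L2) h1
  obtain ⟨r, hr1, hr⟩ :=
    Submodule.exists_sub_one_mem_and_smul_eq_zero_of_fg_of_le_smul _ _ hfg hle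
  have h1 : algebraMap T A r ∈ 𝔪 :=
    ann_ker_le_of_levelRaise p q hp t α β hβα 𝔪 hmax hpm hdet hsupp η η' hη hη' hIhara hDual r
      (fun y hy => hr y (LinearMap.mem_ker.mpr hy))
  have h2 : algebraMap T A (r - 1) ∈ 𝔪 := hr1
  rw [map_sub, map_one] at h2
  have h3 : (1 : A) ∈ 𝔪 := by
    have := sub_mem h1 h2
    simpa using this
  exact hmax.ne_top ((Ideal.eq_top_iff_one 𝔪).mpr h3)

end main

section hom

/-- The same statement for a ring homomorphism `φ : T →+* A` and two compatible module structures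
on `L1` (no `Algebra`/`IsScalarTower` instances needed). -/
theorem ann_ker_le_of_levelRaise_hom {T A : Type*} [CommRing T] [CommRing A] (φ : T →+* A)
    {L1 L2 : Type*} [AddCommGroup L1] [Module A L1] [Module T L1]
    (hcompat : ∀ (a : T) (x : L1), a • x = φ a • x)
    [AddCommGroup L2] [Module T L2] [Module.Finite ℤ L1]
    (p q : ℕ) (hp : p.Prime) (t : A)
    (α : L1 × L1 →ₗ[T] L2) (β : L2 →ₗ[T] L1 × L1)
    (hβα : ∀ x y : L1, β (α (x, y)) =
      (((q : A) + 1) • x + t • y, t • x + ((q : A) + 1) • y))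
    (𝔪 : Ideal A) (hmax : 𝔪.IsMaximal) (hpm : (p : A) ∈ 𝔪)
    (hdet : ((q : A) + 1) ^ 2 - t ^ 2 ∈ 𝔪)
    (hsupp : ∃ x : L1, x ∉ 𝔪 • (⊤ : Submodule A L1))
    (η η' : T) (hη : φ η ∉ 𝔪) (hη' : φ η' ∉ 𝔪)
    (hIhara : ∀ x : L1 × L1, (∃ y, α x = (p : ℤ) • y) → ∃ z, η • x = (p : ℤ) • z)
    (hDual : ∀ y : L1 × L1, ∃ (z : L2) (w : L1 × L1), η' • y = β z + (p : ℤ) • w)
    (s : T) (hs : ∀ y : L2, β y = 0 → s • y = 0) :
    φ s ∈ 𝔪 := by
  letI : Algebra T A := φ.toAlgebra
  haveI : IsScalarTower T A L1 := IsScalarTower.of_algebraMap_smul fun a x => (hcompat a x).symm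
  exact ann_ker_le_of_levelRaise p q hp t α β hβα 𝔪 hmax hpm hdet hsupp η η' hη hη' hIhara hDual
    s hs

end hom

end Fermat.Agent.GM.Alg
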