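/-
GATE-M / S41-ALG, part 2 (helper98): the algebra lemma of level raising packaged with the abstract
Deligne–Serre lifting lemma (`S49_helper65.abstract_deligne_serre`, imported, not edited).

* `exists_eigen_of_ann_le`: a commutative ring `T` acting on a finitely generated abelian group `K`
  which is embedded `T`-equivariantly in a finite dimensional complex vector space `V`; if the
  annihilator of `K` lies in a maximal ideal `𝔫`, there is a common eigenvector in the `ℂ`-span of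
  `K` whose eigencharacter `θ : T → ℤ̄` satisfies `𝔪'.comap θ = 𝔫` for a maximal ideal `𝔪'` of `ℤ̄`.
* `exists_eigen_of_levelRaise`: the same for `K = ker β` under the hypotheses of
  `ann_ker_le_of_levelRaise`.
-/
import Fermat.Agent.GM.Alg.LevelRaiseAlg
import Fermat.Agent.S49_helper65.AbstractDS

set_option autoImplicit false

namespace Fermat.Agent.GM.Alg

open Fermat.Agent.S49_helper65

section lift

variable {T : Type*} [CommRing T] {K : Type*} [AddCommGroup K] [Module T K] [Module.Finite ℤ K]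
  {V : Type*} [AddCommGroup V] [Module ℂ V] [FiniteDimensional ℂ V]

/-- **Deligne–Serre lifting for a lattice.** -/
theorem exists_eigen_of_ann_le (Φ : T →+* Module.End ℂ V) (ι : K →+ V)
    (hι : Function.Injective ι) (hιΦ : ∀ (a : T) (y : K), ι (a • y) = Φ a (ι y))
    (𝔫 : Ideal T) [h𝔫 : 𝔫.IsMaximal] (hann : ∀ s : T, (∀ y : K, s • y = 0) → s ∈ 𝔫) :
    ∃ (g : V) (θ : T →+* integralClosure ℤ ℂ) (𝔪' : Ideal (integralClosure ℤ ℂ)),
      g ≠ 0 ∧ g ∈ Submodule.span ℂ (Set.range ι) ∧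
      (∀ a, Φ a g = ((θ a : integralClosure ℤ ℂ) : ℂ) • g) ∧
      𝔪'.IsMaximal ∧ 𝔪'.comap θ = 𝔫 := by
  classical
  set W : Submodule ℂ V := Submodule.span ℂ (Set.range ι) with hW
  have hstab : ∀ a : T, ∀ w ∈ W, Φ a w ∈ W := by
    intro a w hw
    refine Submodule.span_induction (p := fun w _ => Φ a w ∈ W) ?_ ?_ ?_ ?_ hw
    · rintro _ ⟨y, rfl⟩
      rw [← hιΦ]
      exact Submodule.subset_span ⟨_, rfl⟩
    · rw [map_zero]
      exact zero_mem _
    · intro x y _ _ hx hy
      rw [map_add]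
      exact add_mem hx hy
    · intro c x _ hx
      rw [map_smul]
      exact Submodule.smul_mem _ c hx
  -- the restricted action
  let ρ : T →+* Module.End ℂ W :=
    { toFun := fun a => (Φ a).restrict (hstab a)
      map_one' := by
        ext w
        simp
      map_mul' := by
        intro a b
        ext w
        simp
      map_zero' := by
        ext w
        simp
      map_add' := by
        intro a b
        ext w
        simp }
  have hρ : ∀ (a : T) (w : W), ((ρ a w : W) : V) = Φ a (w : V) := fun a w => rfl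
  -- kernel of `ρ` = annihilator of `K`
  have hker : ∀ a : T, a ∈ RingHom.ker ρ ↔ ∀ y : K, a • y = 0 := by
    intro a
    rw [RingHom.mem_ker]
    constructor
    · intro h y
      apply hι
      rw [map_zero, hιΦ]
      have h1 : ((ρ a ⟨ι y, Submodule.subset_span ⟨y, rfl⟩⟩ : W) : V) = 0 := by
        rw [h]
        rfl
      rw [hρ] at h1
      exact h1
    · intro h
      ext ⟨w, hw⟩
      show Φ a w = 0
      refine Submodule.span_induction (p := fun w _ => Φ a w = 0) ?_ ?_ ?_ ?_ hw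
      · rintro _ ⟨y, rfl⟩
        rw [← hιΦ, h y, map_zero]
      · rw [map_zero]
      · intro x y _ _ hx hy
        rw [map_add, hx, hy, add_zero]
      · intro c x _ hx
        rw [map_smul, hx, smul_zero]
  have hI𝔫 : RingHom.ker ρ ≤ 𝔫 := fun a ha => hann a ((hker a).mp ha)
  -- the faithful quotient
  let ρ' : T ⧸ RingHom.ker ρ →+* Module.End ℂ W := RingHom.kerLift ρ
  have hρ'inj : Function.Injective ρ' := RingHom.kerLift_injective ρ
  have hρ'mk : ∀ a : T, ρ' (Ideal.Quotient.mk _ a) = ρ a := fun a => RingHom.kerLift_mk ρ a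
  -- integrality
  let ψ : T →+* Module.End ℤ K := Module.toModuleEnd ℤ (S := T) K
  have hψ : ∀ (a : T) (y : K), ψ a y = a • y := fun a y => rfl
  have hint : ∀ x : T ⧸ RingHom.ker ρ, IsIntegral ℤ x := by
    intro x
    obtain ⟨a, rfl⟩ := Ideal.Quotient.mk_surjective x
    obtain ⟨P, hPmonic, hP⟩ := Algebra.IsIntegral.isIntegral (R := ℤ) (ψ a)
    refine ⟨P, hPmonic, ?_⟩
    have h1 : Polynomial.eval₂ (algebraMap ℤ (T ⧸ RingHom.ker ρ)) (Ideal.Quotient.mk _ a) P =
        Ideal.Quotient.mk _ (Polynomial.eval₂ (algebraMap ℤ T) a P) := by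
      rw [Polynomial.hom_eval₂]
      congr 1
    rw [h1, Ideal.Quotient.eq_zero_iff_mem, hker]
    intro y
    rw [← hψ, Polynomial.hom_eval₂]
    have h2 : ψ.comp (algebraMap ℤ T) = algebraMap ℤ (Module.End ℤ K) := RingHom.ext_int _ _
    rw [h2, hP]
    rfl
  -- the maximal ideal of the quotient
  set 𝔫' : Ideal (T ⧸ RingHom.ker ρ) := 𝔫.map (Ideal.Quotient.mk (RingHom.ker ρ)) with h𝔫'
  have hcomap : 𝔫'.comap (Ideal.Quotient.mk (RingHom.ker ρ)) = 𝔫 := by
    rw [h𝔫', Ideal.comap_map_of_surjective _ Ideal.Quotient.mk_surjective]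
    have : Ideal.comap (Ideal.Quotient.mk (RingHom.ker ρ)) ⊥ = RingHom.ker ρ := by
      rw [← RingHom.ker_eq_comap_bot, Ideal.mk_ker]
    rw [this]
    exact sup_eq_left.mpr hI𝔫
  have h𝔫'max : 𝔫'.IsMaximal := by
    rcases Ideal.map_eq_top_or_isMaximal_of_surjective (Ideal.Quotient.mk (RingHom.ker ρ))
      Ideal.Quotient.mk_surjective h𝔫 with h | h
    · exfalso
      rw [← h𝔫'] at h
      rw [h, Ideal.comap_top] at hcomap
      exact h𝔫.ne_top hcomap.symm
    · exact h
  obtain ⟨g, θ', 𝔪', hg0, hgθ, h𝔪', h𝔪'comap⟩ :=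
    abstract_deligne_serre ρ' hρ'inj hint 𝔫'
  refine ⟨(g : V), θ'.comp (Ideal.Quotient.mk _), 𝔪', ?_, g.2, ?_, h𝔪', ?_⟩
  · intro h
    exact hg0 (Subtype.ext h)
  · intro a
    have h1 := hgθ (Ideal.Quotient.mk _ a)
    rw [hρ'mk] at h1
    have h2 := congrArg (Subtype.val : W → V) h1
    rw [hρ] at h2
    exact h2
  · rw [← Ideal.comap_comap, h𝔪'comap, hcomap]

end lift

section main

variable {T A : Type*} [CommRing T] [CommRing A] [Algebra T A]
  {L1 L2 : Type*} [AddCommGroup L1] [Module A L1] [Module T L1] [IsScalarTower T A L1]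
  [AddCommGroup L2] [Module T L2] [Module.Finite ℤ L1] [Module.Finite ℤ L2]
  {V : Type*} [AddCommGroup V] [Module ℂ V] [FiniteDimensional ℂ V]

/-- **Abstract level raising.**  Under the hypotheses of `ann_ker_le_of_levelRaise`, if `L2` is
embedded `T`-equivariantly in a finite dimensional complex vector space `V`, there is a common
eigenvector of `T` in the `ℂ`-span of `ker β` whose eigencharacter `θ : T → ℤ̄` reduces to
`𝔪 ∩ T` modulo a maximal ideal `𝔪'` of `ℤ̄` (which contains `p`). -/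
theorem exists_eigen_of_levelRaise (p q : ℕ) (hp : p.Prime) (t : A)
    (α : L1 × L1 →ₗ[T] L2) (β : L2 →ₗ[T] L1 × L1)
    (hβα : ∀ x y : L1, β (α (x, y)) =
      (((q : A) + 1) • x + t • y, t • x + ((q : A) + 1) • y))
    (𝔪 : Ideal A) (hmax : 𝔪.IsMaximal) (hpm : (p : A) ∈ 𝔪)
    (hdet : ((q : A) + 1) ^ 2 - t ^ 2 ∈ 𝔪)
    (hsupp : ∃ x : L1, x ∉ 𝔪 • (⊤ : Submodule A L1))
    (η η' : T) (hη : algebraMap T A η ∉ 𝔪) (hη' : algebraMap T A η' ∉ 𝔪)
    (hIhara : ∀ x : L1 × L1, (∃ y, α x = (p : ℤ) • y) → ∃ z, η • x = (p : ℤ) • z)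
    (hDual : ∀ y : L1 × L1, ∃ (z : L2) (w : L1 × L1), η' • y = β z + (p : ℤ) • w)
    (h𝔫max : (𝔪.comap (algebraMap T A)).IsMaximal)
    (Φ : T →+* Module.End ℂ V) (ι : L2 →+ V)
    (hι : Function.Injective ι) (hιΦ : ∀ (a : T) (y : L2), ι (a • y) = Φ a (ι y)) :
    ∃ (g : V) (θ : T →+* integralClosure ℤ ℂ) (𝔪' : Ideal (integralClosure ℤ ℂ)),
      g ≠ 0 ∧ g ∈ Submodule.span ℂ (ι '' {y : L2 | β y = 0}) ∧
      (∀ a, Φ a g = ((θ a : integralClosure ℤ ℂ) : ℂ) • g) ∧
      𝔪'.IsMaximal ∧ 𝔪'.comap θ = 𝔪.comap (algebraMap T A) ∧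
      (p : integralClosure ℤ ℂ) ∈ 𝔪' := by
  classical
  set Kβ : Submodule T L2 := LinearMap.ker β with hKβ
  have hfin : Module.Finite ℤ Kβ := by
    have h1 : ((Kβ.restrictScalars ℤ)).FG := IsNoetherian.noetherian _
    exact Module.Finite.of_fg h1
  let ι' : Kβ →+ V := ι.comp Kβ.subtype.toAddMonoidHom
  have hι' : Function.Injective ι' := hι.comp Subtype.val_injective
  have hι'Φ : ∀ (a : T) (y : Kβ), ι' (a • y) = Φ a (ι' y) := fun a y => hιΦ a y
  have hann : ∀ s : T, (∀ y : Kβ, s • y = 0) → s ∈ 𝔪.comap (algebraMap T A) := by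
    intro s hs
    rw [Ideal.mem_comap]
    refine ann_ker_le_of_levelRaise p q hp t α β hβα 𝔪 hmax hpm hdet hsupp η η' hη hη' hIhara
      hDual s ?_
    intro y hy
    have := hs ⟨y, LinearMap.mem_ker.mpr hy⟩
    exact congrArg Subtype.val this
  obtain ⟨g, θ, 𝔪', hg0, hgspan, hgθ, h𝔪', hcomap⟩ :=
    exists_eigen_of_ann_le Φ ι' hι' hι'Φ (𝔪.comap (algebraMap T A)) hann
  refine ⟨g, θ, 𝔪', hg0, ?_, hgθ, h𝔪', hcomap, ?_⟩
  · have : Set.range ι' = ι '' {y : L2 | β y = 0} := by
      ext v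
      constructor
      · rintro ⟨y, rfl⟩
        exact ⟨y.1, LinearMap.mem_ker.mp y.2, rfl⟩
      · rintro ⟨y, hy, rfl⟩
        exact ⟨⟨y, LinearMap.mem_ker.mpr hy⟩, rfl⟩
    rw [← this]
    exact hgspan
  · have h1 : (p : T) ∈ 𝔪.comap (algebraMap T A) := by
      rw [Ideal.mem_comap, map_natCast]
      exact hpm
    rw [← hcomap, Ideal.mem_comap, map_natCast] at h1
    exact h1

end main

end Fermat.Agent.GM.Alg
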