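/-
GATE-M / S41-ALG, part 4 (helper98): the complete algebra chain of level raising in one call.

Ihara's lemma (iii) + a mod-`p` perfect pairing `B` on `L1` and `B2` on `L2` for which
`(β1, β2)` is adjoint to `α1 + α2` and `η` is self-adjoint  ⟹  an eigenvector of the Hecke algebra
in `ℂ · ker β` whose eigencharacter reduces to `𝔪 ∩ T`.
Chains `DualIhara.dual_ihara_of_pairing` and `LevelRaiseLift.exists_eigen_of_levelRaise`.
-/
import Fermat.Agent.GM.Alg.DualIhara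
import Fermat.Agent.GM.Alg.LevelRaiseLift

set_option autoImplicit false

namespace Fermat.Agent.GM.Alg

section prod

variable {L1 : Type*} [AddCommGroup L1] {R : Type*} [AddCommGroup R]

/-- The orthogonal sum `B ⊕ B` on `L1 × L1`. -/
def prodPairing (B : L1 →+ L1 →+ R) : (L1 × L1) →+ (L1 × L1) →+ R :=
  AddMonoidHom.mk'
    (fun x => (B x.1).comp (AddMonoidHom.fst L1 L1) + (B x.2).comp (AddMonoidHom.snd L1 L1))
    (by
      intro x y
      ext z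
      simp [add_add_add_comm])

@[simp] theorem prodPairing_apply (B : L1 →+ L1 →+ R) (x y : L1 × L1) :
    prodPairing B x y = B x.1 y.1 + B x.2 y.2 := rfl

theorem prodPairing_nondeg (p : ℕ) (B : L1 →+ L1 →+ R)
    (hB : ∀ x : L1, (∀ y, B x y = 0) → ∃ z, x = (p : ℤ) • z) :
    ∀ x : L1 × L1, (∀ y, prodPairing B x y = 0) → ∃ z, x = (p : ℤ) • z := by
  intro x hx
  obtain ⟨z1, hz1⟩ := hB x.1 (fun y => by simpa using hx (y, 0))
  obtain ⟨z2, hz2⟩ := hB x.2 (fun y => by simpa using hx (0, y))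
  exact ⟨(z1, z2), Prod.ext hz1 hz2⟩

end prod

section chain

variable {T A : Type*} [CommRing T] [CommRing A] [Algebra T A]
  {L1 L2 : Type*} [AddCommGroup L1] [Module A L1] [Module T L1] [IsScalarTower T A L1]
  [AddCommGroup L2] [Module T L2] [Module.Finite ℤ L1] [Module.Finite ℤ L2]
  {V : Type*} [AddCommGroup V] [Module ℂ V] [FiniteDimensional ℂ V]

/-- **Level raising, algebra chain in one call.**  `α = α1 ∘ fst + α2 ∘ snd`, `β = (β1, β2)`. -/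
theorem exists_eigen_of_levelRaise_of_pairings (p q : ℕ) [hp : Fact p.Prime] (t : A)
    (α1 α2 : L1 →ₗ[T] L2) (β1 β2 : L2 →ₗ[T] L1)
    (h11 : ∀ x : L1, β1 (α1 x) = ((q : A) + 1) • x) (h12 : ∀ x : L1, β1 (α2 x) = t • x)
    (h21 : ∀ x : L1, β2 (α1 x) = t • x) (h22 : ∀ x : L1, β2 (α2 x) = ((q : A) + 1) • x)
    (𝔪 : Ideal A) (hmax : 𝔪.IsMaximal) (hpm : (p : A) ∈ 𝔪)
    (hdet : ((q : A) + 1) ^ 2 - t ^ 2 ∈ 𝔪)
    (hsupp : ∃ x : L1, x ∉ 𝔪 • (⊤ : Submodule A L1))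
    (h𝔫max : (𝔪.comap (algebraMap T A)).IsMaximal)
    (η : T) (hη : algebraMap T A η ∉ 𝔪)
    (hIhara : ∀ x y : L1, (∃ w, α1 x + α2 y = (p : ℤ) • w) →
      ∃ z1 z2 : L1, η • x = (p : ℤ) • z1 ∧ η • y = (p : ℤ) • z2)
    (B : L1 →+ L1 →+ ZMod p) (B2 : L2 →+ L2 →+ ZMod p)
    (hB : ∀ x : L1, (∀ y, B x y = 0) → ∃ z, x = (p : ℤ) • z)
    (hB2 : ∀ w : L2, (∀ z, B2 w z = 0) → ∃ z, w = (p : ℤ) • z)
    (hadj1 : ∀ x z, B2 (α1 x) z = B x (β1 z)) (hadj2 : ∀ x z, B2 (α2 x) z = B x (β2 z))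
    (hηadj : ∀ x y : L1, B (η • x) y = B x (η • y))
    (Φ : T →+* Module.End ℂ V) (ι : L2 →+ V)
    (hι : Function.Injective ι) (hιΦ : ∀ (a : T) (y : L2), ι (a • y) = Φ a (ι y)) :
    ∃ (g : V) (θ : T →+* integralClosure ℤ ℂ) (𝔪' : Ideal (integralClosure ℤ ℂ)),
      g ≠ 0 ∧ g ∈ Submodule.span ℂ (ι '' {y : L2 | β1 y = 0 ∧ β2 y = 0}) ∧
      (∀ a, Φ a g = ((θ a : integralClosure ℤ ℂ) : ℂ) • g) ∧
      𝔪'.IsMaximal ∧ 𝔪'.comap θ = 𝔪.comap (algebraMap T A) ∧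
      (p : integralClosure ℤ ℂ) ∈ 𝔪' := by
  classical
  let α : L1 × L1 →ₗ[T] L2 := α1.coprod α2
  let β : L2 →ₗ[T] L1 × L1 := β1.prod β2
  have hα : ∀ x y : L1, α (x, y) = α1 x + α2 y := fun x y => LinearMap.coprod_apply _ _ _
  have hβ : ∀ z : L2, β z = (β1 z, β2 z) := fun z => rfl
  have hβα : ∀ x y : L1, β (α (x, y)) =
      (((q : A) + 1) • x + t • y, t • x + ((q : A) + 1) • y) := by
    intro x y
    rw [hα, hβ, map_add, map_add, h11, h12, h21, h22]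
  have hIhara' : ∀ x : L1 × L1, (∃ y, α x = (p : ℤ) • y) → ∃ z, η • x = (p : ℤ) • z := by
    rintro ⟨x, y⟩ ⟨w, hw⟩
    rw [hα] at hw
    obtain ⟨z1, z2, h1, h2⟩ := hIhara x y ⟨w, hw⟩
    exact ⟨(z1, z2), Prod.ext h1 h2⟩
  have hadj : ∀ (x : L1 × L1) (z : L2), B2 (α x) z = prodPairing B x (β z) := by
    rintro ⟨x, y⟩ z
    rw [hα, map_add, AddMonoidHom.add_apply, hadj1, hadj2, prodPairing_apply, hβ]
  have hηadj' : ∀ x y : L1 × L1, prodPairing B (η • x) y = prodPairing B x (η • y) := by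
    intro x y
    simp only [prodPairing_apply, Prod.smul_fst, Prod.smul_snd, hηadj]
  have hDual := dual_ihara_of_pairing p α β (prodPairing B) B2 (prodPairing_nondeg p B hB) hB2
    hadj η hηadj' hIhara'
  obtain ⟨g, θ, 𝔪', hg0, hgspan, hgθ, h𝔪', hcomap, hp𝔪'⟩ :=
    exists_eigen_of_levelRaise p q hp.out t α β hβα 𝔪 hmax hpm hdet hsupp η η hη hη hIhara' hDual
      h𝔫max Φ ι hι hιΦ
  refine ⟨g, θ, 𝔪', hg0, ?_, hgθ, h𝔪', hcomap, hp𝔪'⟩
  have hset : {y : L2 | β y = 0} = {y : L2 | β1 y = 0 ∧ β2 y = 0} := by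
    ext y
    simp only [Set.mem_ofPred_eq, hβ, Prod.mk_eq_zero]
  rw [← hset]
  exact hgspan

end chain

end Fermat.Agent.GM.Alg
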