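/-
GATE-M / S41-ALG, part 3 (helper98): the dual Ihara statement (iv) from Ihara's lemma (iii) and
mod-`p` perfect pairings (helper95, board 3373 (4)).

`α : X → L2`, `β : L2 → X` adjoint for pairings `B1` on `X`, `B2` on `L2` with values in `ZMod p`,
both left non-degenerate modulo `p`; `η` self-adjoint for `B1` and killing `ker (α mod p)`.
Then `η` kills `coker (β mod p)`: this is the binder `hDual` of
`Fermat.Agent.GM.Alg.ann_ker_le_of_levelRaise` (with `η' = η`).  Mathlib only.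
-/
import Mathlib

set_option autoImplicit false

namespace Fermat.Agent.GM.Alg

open Module

section abstract

variable {X L2 V : Type*} [AddCommGroup X] [AddCommGroup L2] [AddCommGroup V]

/-- The core of the dual Ihara statement, for an abstract model `π : X → V` of `X / pX`. -/
theorem dual_ihara_core (p : ℕ) [hp : Fact p.Prime] [Module (ZMod p) V] [Finite V]
    (π : X →+ V) (hπsurj : Function.Surjective π)
    (hπker : ∀ x : X, π x = 0 ↔ ∃ z, x = (p : ℤ) • z)
    (α : X →+ L2) (β : L2 →+ X)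
    (B1 : X →+ X →+ ZMod p) (B2 : L2 →+ L2 →+ ZMod p)
    (hB1 : ∀ x : X, (∀ y, B1 x y = 0) → ∃ z, x = (p : ℤ) • z)
    (hB2 : ∀ w : L2, (∀ z, B2 w z = 0) → ∃ z, w = (p : ℤ) • z)
    (hadj : ∀ x z, B2 (α x) z = B1 x (β z))
    (η : X →+ X) (hηadj : ∀ x y, B1 (η x) y = B1 x (η y))
    (hIhara : ∀ x : X, (∃ y, α x = (p : ℤ) • y) → ∃ z, η x = (p : ℤ) • z) :
    ∀ y : X, ∃ (z : L2) (w : X), η y = β z + (p : ℤ) • w := by
  classical
  have hVfd : Module.Finite (ZMod p) V := Module.Finite.of_finite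
  have hπker' : ∀ x : X, x ∈ π.ker ↔ ∃ z, x = (p : ℤ) • z := fun x => hπker x
  -- `B1 x` kills `ker π`
  have hkill : ∀ x : X, π.ker ≤ (B1 x).ker := by
    intro x u hu
    obtain ⟨z, rfl⟩ := (hπker' u).mp hu
    rw [AddMonoidHom.mem_ker, natCast_zsmul, map_nsmul]
    exact ZModModule.char_nsmul_eq_zero p _
  -- the functional attached to `x`
  let fX : X → (V →ₗ[ZMod p] ZMod p) := fun x =>
    (π.liftOfSurjective hπsurj ⟨B1 x, hkill x⟩).toZModLinearMap p
  have hfX : ∀ (x y : X), (fX x) (π y) = B1 x y := by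
    intro x y
    exact AddMonoidHom.liftOfRightInverse_comp_apply π (Function.surjInv hπsurj)
      (Function.rightInverse_surjInv hπsurj) ⟨B1 x, hkill x⟩ y
  let Ψ₀ : X →+ (V →ₗ[ZMod p] ZMod p) :=
    { toFun := fX
      map_zero' := by
        ext v
        obtain ⟨y, rfl⟩ := hπsurj v
        rw [hfX, map_zero]
        rfl
      map_add' := by
        intro a b
        ext v
        obtain ⟨y, rfl⟩ := hπsurj v
        rw [LinearMap.add_apply, hfX, hfX, hfX, map_add]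
        rfl }
  have hΨ₀kill : π.ker ≤ Ψ₀.ker := by
    intro u hu
    obtain ⟨z, rfl⟩ := (hπker' u).mp hu
    rw [AddMonoidHom.mem_ker, natCast_zsmul, map_nsmul]
    exact ZModModule.char_nsmul_eq_zero p _
  let Ψ : V →ₗ[ZMod p] (V →ₗ[ZMod p] ZMod p) :=
    (π.liftOfSurjective hπsurj ⟨Ψ₀, hΨ₀kill⟩).toZModLinearMap p
  have hΨ : ∀ (x y : X), (Ψ (π x)) (π y) = B1 x y := by
    intro x y
    have h1 : Ψ (π x) = fX x :=
      AddMonoidHom.liftOfRightInverse_comp_apply π (Function.surjInv hπsurj)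
        (Function.rightInverse_surjInv hπsurj) ⟨Ψ₀, hΨ₀kill⟩ x
    rw [h1, hfX]
  have hΨinj : Function.Injective Ψ := by
    rw [← LinearMap.ker_eq_bot, LinearMap.ker_eq_bot']
    intro v hv
    obtain ⟨x, rfl⟩ := hπsurj v
    have h1 : ∀ y, B1 x y = 0 := by
      intro y
      rw [← hΨ, hv]
      rfl
    exact (hπker x).mpr (hB1 x h1)
  have hΨsurj : Function.Surjective Ψ :=
    (LinearMap.injective_iff_surjective_of_finrank_eq_finrank
      (Subspace.dual_finrank_eq (K := ZMod p) (V := V)).symm).mp hΨinj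
  -- the image of `β` in `V`
  let U : Submodule (ZMod p) V := AddSubgroup.toZModSubmodule p (β.range.map π)
  have hUmem : ∀ v : V, v ∈ U ↔ ∃ z : L2, v = π (β z) := by
    intro v
    constructor
    · rintro ⟨_, ⟨z, rfl⟩, rfl⟩
      exact ⟨z, rfl⟩
    · rintro ⟨z, rfl⟩
      exact ⟨β z, ⟨z, rfl⟩, rfl⟩
  intro y
  have hmem : π (η y) ∈ U := by
    rw [← Subspace.forall_mem_dualAnnihilator_apply_eq_zero_iff]
    intro φ hφ
    obtain ⟨v, rfl⟩ := hΨsurj φ
    obtain ⟨x, rfl⟩ := hπsurj v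
    rw [hΨ]
    -- `x` is orthogonal to the image of `β`, hence `α x ∈ p L2`
    have h1 : ∀ z : L2, B2 (α x) z = 0 := by
      intro z
      rw [hadj, ← hΨ]
      exact (Submodule.mem_dualAnnihilator _).mp hφ _ ((hUmem _).mpr ⟨z, rfl⟩)
    obtain ⟨z', hz'⟩ := hIhara x (hB2 _ h1)
    rw [← hηadj, hz', natCast_zsmul, map_nsmul, AddMonoidHom.nsmul_apply]
    exact ZModModule.char_nsmul_eq_zero p _
  obtain ⟨z, hz⟩ := (hUmem _).mp hmem
  have h2 : π (η y - β z) = 0 := by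
    rw [map_sub, hz, sub_self]
  obtain ⟨w, hw⟩ := (hπker _).mp h2
  exact ⟨z, w, by rw [← hw]; abel⟩

end abstract

section dual

variable {X L2 : Type*} [AddCommGroup X] [AddCommGroup L2] [Module.Finite ℤ X]

/-- **Dual Ihara from duality** (additive form: `η` is any additive endomorphism of `X`). -/
theorem dual_ihara_of_pairing_add (p : ℕ) [hp : Fact p.Prime]
    (α : X →+ L2) (β : L2 →+ X)
    (B1 : X →+ X →+ ZMod p) (B2 : L2 →+ L2 →+ ZMod p)
    (hB1 : ∀ x : X, (∀ y, B1 x y = 0) → ∃ z, x = (p : ℤ) • z)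
    (hB2 : ∀ w : L2, (∀ z, B2 w z = 0) → ∃ z, w = (p : ℤ) • z)
    (hadj : ∀ x z, B2 (α x) z = B1 x (β z))
    (η : X →+ X) (hηadj : ∀ x y, B1 (η x) y = B1 x (η y))
    (hIhara : ∀ x : X, (∃ y, α x = (p : ℤ) • y) → ∃ z, η x = (p : ℤ) • z) :
    ∀ y : X, ∃ (z : L2) (w : X), η y = β z + (p : ℤ) • w := by
  classical
  -- the subgroup `pX` and the quotient `V = X / pX`
  let H : AddSubgroup X := (nsmulAddMonoidHom p : X →+ X).range
  have hHmem : ∀ x : X, x ∈ H ↔ ∃ z, x = (p : ℤ) • z := by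
    intro x
    constructor
    · rintro ⟨z, rfl⟩
      exact ⟨z, by simp [natCast_zsmul]⟩
    · rintro ⟨z, rfl⟩
      exact ⟨z, by simp [natCast_zsmul]⟩
  have hH : ∀ x : X, p • x ∈ H := fun x => ⟨x, rfl⟩
  have inst : Module (ZMod p) (X ⧸ H) := QuotientAddGroup.zmodModule hH
  have hVfin : Finite (X ⧸ H) := by
    have h1 : Module.Finite ℤ (X ⧸ H) :=
      Module.Finite.of_surjective (QuotientAddGroup.mk' H).toIntLinearMap
        (QuotientAddGroup.mk'_surjective H)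
    refine Module.finite_of_fg_torsion (X ⧸ H) ?_
    intro x
    refine ⟨⟨(p : ℤ), mem_nonZeroDivisors_of_ne_zero (by exact_mod_cast hp.out.ne_zero)⟩, ?_⟩
    show (p : ℤ) • x = 0
    rw [natCast_zsmul]
    exact ZModModule.char_nsmul_eq_zero p x
  refine dual_ihara_core (V := X ⧸ H) p (QuotientAddGroup.mk' H)
    (QuotientAddGroup.mk'_surjective H) ?_ α β B1 B2 hB1 hB2 hadj η hηadj hIhara
  intro x
  rw [← hHmem]
  exact QuotientAddGroup.eq_zero_iff x

end dual

section linear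

variable {T : Type*} [CommRing T] {X L2 : Type*} [AddCommGroup X] [Module T X]
  [AddCommGroup L2] [Module T L2] [Module.Finite ℤ X]

/-- **Dual Ihara from duality**, in the shape of the binder `hDual` of
`ann_ker_le_of_levelRaise` (take `X = L1 × L1`, `η' = η`). -/
theorem dual_ihara_of_pairing (p : ℕ) [Fact p.Prime]
    (α : X →ₗ[T] L2) (β : L2 →ₗ[T] X)
    (B1 : X →+ X →+ ZMod p) (B2 : L2 →+ L2 →+ ZMod p)
    (hB1 : ∀ x : X, (∀ y, B1 x y = 0) → ∃ z, x = (p : ℤ) • z)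
    (hB2 : ∀ w : L2, (∀ z, B2 w z = 0) → ∃ z, w = (p : ℤ) • z)
    (hadj : ∀ x z, B2 (α x) z = B1 x (β z))
    (η : T) (hηadj : ∀ x y, B1 (η • x) y = B1 x (η • y))
    (hIhara : ∀ x : X, (∃ y, α x = (p : ℤ) • y) → ∃ z, η • x = (p : ℤ) • z) :
    ∀ y : X, ∃ (z : L2) (w : X), η • y = β z + (p : ℤ) • w :=
  dual_ihara_of_pairing_add p α.toAddMonoidHom β.toAddMonoidHom B1 B2 hB1 hB2 hadj
    (DistribSMul.toAddMonoidHom X η) hηadj hIhara

end linear

end Fermat.Agent.GM.Alg
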